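import Fermat.Agent.KroneckerApprox.Torus
import Mathlib.NumberTheory.EulerProduct.DirichletLSeries
import Mathlib.NumberTheory.LSeries.RiemannZeta
import Mathlib.Data.Nat.Factorization.Basic

/-!
# The values of `ζ` right of the line one

The logarithms of the primes being independent, a translation `t` makes finitely many of the Euler
factors at `σ + i t` as large, or as small, as their absolute values allow; the others together
are close to one.
-/

set_option autoImplicit false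
set_option linter.style.haveILetI false

noncomputable section

open Filter Topology Finset

namespace FA.KroneckerApprox

/-- **The logarithms of distinct primes are independent.** -/
theorem log_primes_independent {n : ℕ} {pr : Fin n → ℕ} (hp : ∀ i, (pr i).Prime)
    (hinj : Function.Injective pr) (m : Fin n → ℤ)
    (h : ∑ i, (m i : ℝ) * Real.log (pr i) = 0) : m = 0 := by
  have hlog : ∀ a : Fin n → ℕ,
      Real.log ((∏ i, pr i ^ a i : ℕ) : ℝ) = ∑ i, (a i : ℝ) * Real.log (pr i) := fun a => by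
    push_cast
    rw [Real.log_prod fun i _ => pow_ne_zero _ (Nat.cast_ne_zero.2 (hp i).ne_zero)]
    simp [Real.log_pow]
  have hpos : ∀ a : Fin n → ℕ, 0 < ∏ i, pr i ^ a i := fun a =>
    Finset.prod_pos fun i _ => pow_pos (hp i).pos _
  have hval : ∀ (a : Fin n → ℕ) (j : Fin n), (∏ i, pr i ^ a i).factorization (pr j) = a j :=
    fun a j => by
      rw [Nat.factorization_prod fun i _ => pow_ne_zero _ (hp i).ne_zero, Finsupp.finsetSum_apply]
      simp only [(hp _).factorization_pow, Finsupp.single_apply, hinj.eq_iff]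
      simp
  have heq : ∏ i, pr i ^ (m i).toNat = ∏ i, pr i ^ (-m i).toNat := by
    refine Nat.cast_injective (R := ℝ) (Real.log_injOn_pos
      (Set.mem_Ioi.2 (Nat.cast_pos.2 (hpos _)))
      (Set.mem_Ioi.2 (Nat.cast_pos.2 (hpos _))) ?_)
    rw [hlog, hlog, ← sub_eq_zero, ← Finset.sum_sub_distrib, ← h]
    refine Finset.sum_congr rfl fun i _ => ?_
    rw [← sub_mul]
    congr 1
    exact_mod_cast Int.toNat_sub_toNat_neg (m i)
  funext j
  have := congrArg (fun k => k.factorization (pr j)) heq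
  simp only [hval] at this
  simp only [Pi.zero_apply]
  omega

/-- The real value of `ζ`. -/
def realZeta (σ : ℝ) : ℝ := (riemannZeta σ).re

/-- The product of `(1 + a p ^ (-σ))⁻¹` below `N`. -/
def eulerPart (a σ : ℝ) (N : ℕ) : ℝ := ∏ p ∈ N.primesBelow, (1 + a * (p : ℝ) ^ (-σ))⁻¹

/-- The absolute value of the partial Euler product. -/
def normPart (s : ℂ) (N : ℕ) : ℝ := ∏ p ∈ N.primesBelow, ‖1 - (p : ℂ) ^ (-s)‖⁻¹

theorem primesBelow_mono {N M : ℕ} (h : N ≤ M) : N.primesBelow ⊆ M.primesBelow := fun p hp => by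
  rw [Nat.mem_primesBelow] at hp ⊢
  exact ⟨hp.1.trans_le h, hp.2⟩

theorem rpow_lt_one_of_prime {p : ℕ} (hp : p.Prime) {σ : ℝ} (hσ : 0 < σ) :
    0 < (p : ℝ) ^ (-σ) ∧ (p : ℝ) ^ (-σ) < 1 :=
  ⟨Real.rpow_pos_of_pos (Nat.cast_pos.2 hp.pos) _,
    Real.rpow_lt_one_of_one_lt_of_neg (Nat.one_lt_cast.2 hp.one_lt) (by linarith)⟩

theorem tendsto_eulerPart_neg {σ : ℝ} (hσ : 1 < σ) :
    Tendsto (eulerPart (-1) σ) atTop (𝓝 (realZeta σ)) := by
  have h := riemannZeta_eulerProduct (s := (σ : ℂ)) (by simpa using hσ)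
  refine ((Complex.continuous_re.tendsto _).comp h).congr fun N => ?_
  have e : (∏ p ∈ N.primesBelow, (1 - (p : ℂ) ^ (-(σ : ℂ)))⁻¹) = (eulerPart (-1) σ N : ℂ) := by
    simp only [eulerPart, Complex.ofReal_prod]
    refine Finset.prod_congr rfl fun p _ => ?_
    rw [← Complex.ofReal_neg, ← Complex.ofReal_natCast, ← Complex.ofReal_cpow (Nat.cast_nonneg _)]
    push_cast
    ring
  rw [Function.comp_apply, e, Complex.ofReal_re]

theorem one_le_eulerPart_neg {σ : ℝ} (hσ : 0 < σ) (N : ℕ) : 1 ≤ eulerPart (-1) σ N :=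
  Finset.one_le_prod fun p hp => by
    obtain ⟨h0, h1⟩ := rpow_lt_one_of_prime (Nat.prime_of_mem_primesBelow hp) hσ
    rw [one_le_inv₀ (by linarith)]
    linarith

theorem realZeta_pos {σ : ℝ} (hσ : 1 < σ) : 1 ≤ realZeta σ :=
  ge_of_tendsto' (tendsto_eulerPart_neg hσ) (one_le_eulerPart_neg (by linarith))

theorem tendsto_eulerPart_pos {σ : ℝ} (hσ : 1 < σ) :
    Tendsto (eulerPart 1 σ) atTop (𝓝 (realZeta (2 * σ) / realZeta σ)) := by
  refine ((tendsto_eulerPart_neg (by linarith : 1 < 2 * σ)).div (tendsto_eulerPart_neg hσ)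
    (zero_lt_one.trans_le (realZeta_pos hσ)).ne').congr fun N => ?_
  show eulerPart (-1) (2 * σ) N / eulerPart (-1) σ N = eulerPart 1 σ N
  rw [eulerPart, eulerPart, eulerPart, ← Finset.prod_div_distrib]
  refine Finset.prod_congr rfl fun p hp => ?_
  have hp' := Nat.prime_of_mem_primesBelow hp
  obtain ⟨h0, h1⟩ := rpow_lt_one_of_prime hp' (by linarith : 0 < σ)
  rw [show (p : ℝ) ^ (-(2 * σ)) = ((p : ℝ) ^ (-σ)) ^ 2 by
    rw [← Real.rpow_natCast, ← Real.rpow_mul (Nat.cast_nonneg _)]; congr 1; push_cast; ring]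
  have : 1 - (p : ℝ) ^ (-σ) ≠ 0 := by linarith
  have : 1 + (p : ℝ) ^ (-σ) ≠ 0 := by linarith
  have : 1 + -1 * ((p : ℝ) ^ (-σ)) ^ 2 ≠ 0 := by nlinarith
  have : 1 - ((p : ℝ) ^ (-σ)) ^ 2 ≠ 0 := by nlinarith
  rw [show 1 + -1 * ((p : ℝ) ^ (-σ)) ^ 2 = (1 - (p : ℝ) ^ (-σ)) * (1 + (p : ℝ) ^ (-σ)) by ring,
    neg_one_mul, one_mul, ← sub_eq_add_neg, mul_inv]
  field_simp

theorem factor_bounds {σ t : ℝ} (hσ : 0 < σ) {p : ℕ} (hp : p.Prime) :
    (1 + 1 * (p : ℝ) ^ (-σ))⁻¹ ≤ ‖1 - (p : ℂ) ^ (-((σ : ℂ) + t * Complex.I))‖⁻¹ ∧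
      ‖1 - (p : ℂ) ^ (-((σ : ℂ) + t * Complex.I))‖⁻¹ ≤ (1 + -1 * (p : ℝ) ^ (-σ))⁻¹ := by
  obtain ⟨h0, h1⟩ := rpow_lt_one_of_prime hp hσ
  have hn : ‖(p : ℂ) ^ (-((σ : ℂ) + t * Complex.I))‖ = (p : ℝ) ^ (-σ) := by
    rw [Complex.norm_natCast_cpow_of_pos hp.pos]
    simp
  have a := norm_sub_norm_le (1 : ℂ) ((p : ℂ) ^ (-((σ : ℂ) + t * Complex.I)))
  have b := norm_sub_le (1 : ℂ) ((p : ℂ) ^ (-((σ : ℂ) + t * Complex.I)))
  rw [norm_one, hn] at a b
  exact ⟨inv_anti₀ (by linarith) (by linarith), inv_anti₀ (by linarith) (by linarith)⟩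

/-- The factors above `N` change little. -/
theorem norm_zeta_bounds {σ : ℝ} (hσ : 1 < σ) (t : ℝ) (N : ℕ) :
    normPart (σ + t * Complex.I) N * (realZeta (2 * σ) / realZeta σ / eulerPart 1 σ N) ≤
        ‖riemannZeta (σ + t * Complex.I)‖ ∧
      ‖riemannZeta (σ + t * Complex.I)‖ ≤
        normPart (σ + t * Complex.I) N * (realZeta σ / eulerPart (-1) σ N) := by
  set s : ℂ := σ + t * Complex.I
  have hs : Tendsto (normPart s) atTop (𝓝 ‖riemannZeta s‖) :=
    (riemannZeta_eulerProduct (s := s) (by simpa [s] using hσ)).norm.congr fun M => by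
      simp [normPart, norm_prod]
  have hσ0 : 0 < σ := by linarith
  have hpos : ∀ (a : ℝ) (p : ℕ), p.Prime → -1 ≤ a → 0 < 1 + a * (p : ℝ) ^ (-σ) :=
    fun a p hp ha => by
    obtain ⟨h0, h1⟩ := rpow_lt_one_of_prime hp hσ0
    nlinarith
  have hfac : ∀ p : ℕ, p.Prime → 0 < ‖1 - (p : ℂ) ^ (-s)‖⁻¹ := fun p hp =>
    (inv_pos.2 (hpos 1 p hp (by norm_num))).trans_le (factor_bounds (t := t) hσ0 hp).1
  have hNpos : ∀ (a : ℝ) (M : ℕ), -1 ≤ a → 0 < eulerPart a σ M := fun a M ha =>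
    Finset.prod_pos fun p hp => inv_pos.2 (hpos a p (Nat.prime_of_mem_primesBelow hp) ha)
  have hn0 : ∀ M, 0 < normPart s M := fun M =>
    Finset.prod_pos fun p hp => hfac p (Nat.prime_of_mem_primesBelow hp)
  refine ⟨le_of_tendsto_of_tendsto (((tendsto_eulerPart_pos hσ).div_const _).const_mul _) hs ?_,
    le_of_tendsto_of_tendsto hs (((tendsto_eulerPart_neg hσ).div_const _).const_mul _) ?_⟩
  all_goals
    filter_upwards [eventually_ge_atTop N] with M hM
  · rw [← mul_div_assoc, div_le_iff₀ (hNpos 1 N (by norm_num)), normPart, normPart, eulerPart,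
      eulerPart, ← Finset.prod_sdiff (primesBelow_mono hM),
      ← Finset.prod_sdiff (primesBelow_mono hM)]
    refine le_trans (le_of_eq ?_) (mul_le_mul_of_nonneg_right (mul_le_mul_of_nonneg_right
      (Finset.prod_le_prod (fun p hp => (inv_pos.2 (hpos 1 p (Nat.prime_of_mem_primesBelow
        (Finset.mem_sdiff.1 hp).1) (by norm_num))).le) fun p hp =>
        (factor_bounds (t := t) hσ0 (Nat.prime_of_mem_primesBelow (Finset.mem_sdiff.1 hp).1)).1)
      (hn0 N).le) (hNpos 1 N (by norm_num)).le)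
    ring
  · rw [← mul_div_assoc, le_div_iff₀ (hNpos (-1) N le_rfl), normPart, normPart, eulerPart,
      eulerPart, ← Finset.prod_sdiff (primesBelow_mono hM),
      ← Finset.prod_sdiff (primesBelow_mono hM)]
    refine (mul_le_mul_of_nonneg_right (mul_le_mul_of_nonneg_right
      (Finset.prod_le_prod (fun p hp => (hfac p (Nat.prime_of_mem_primesBelow
        (Finset.mem_sdiff.1 hp).1)).le) fun p hp =>
        (factor_bounds (t := t) hσ0 (Nat.prime_of_mem_primesBelow (Finset.mem_sdiff.1 hp).1)).2)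
      (hn0 N).le) (hNpos (-1) N le_rfl).le).trans (le_of_eq ?_)
    simp only [normPart, eulerPart, neg_one_mul, ← sub_eq_add_neg]
    ring

/-- Finitely many factors come near `(1 + a p ^ (-σ))⁻¹`. -/
theorem exists_normPart_near {σ : ℝ} (hσ : 0 < σ) {a : ℝ} (ha : a = 1 ∨ a = -1) (N : ℕ) (T : ℝ)
    {ε : ℝ} (hε : 0 < ε) :
    ∃ t, T ≤ t ∧ |normPart (σ + t * Complex.I) N - eulerPart a σ N| < ε := by
  obtain ⟨c, hc, hca⟩ : ∃ c : ℝ, Complex.exp (2 * Real.pi * c * Complex.I) = -a ∧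
      |a| = 1 := by
    rcases ha with rfl | rfl
    · refine ⟨1 / 2, ?_, abs_one⟩
      rw [show (2 * Real.pi * ((1 / 2 : ℝ) : ℂ) * Complex.I) = Real.pi * Complex.I by
        push_cast; ring, Complex.exp_pi_mul_I]
      simp
    · exact ⟨0, by simp, by simp⟩
  set S := N.primesBelow
  obtain ⟨pr, hprS, hinj, hprod⟩ : ∃ pr : Fin S.card → ℕ, (∀ i, pr i ∈ S) ∧
      Function.Injective pr ∧ ∀ f : ℕ → ℝ, ∏ i, f (pr i) = ∏ p ∈ S, f p := by
    refine ⟨fun i => (S.equivFin.symm i : ℕ), fun i => (S.equivFin.symm i).2,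
      Subtype.val_injective.comp S.equivFin.symm.injective, fun f => ?_⟩
    rw [← Finset.prod_coe_sort S]
    exact Equiv.prod_comp S.equivFin.symm fun p : S => f p
  have hpr : ∀ i, (pr i).Prime := fun i => Nat.prime_of_mem_primesBelow (hprS i)
  let Φ : (Fin S.card → ℝ) → ℝ := fun φ => ∏ i,
    ‖1 - (((pr i : ℝ) ^ (-σ) : ℝ) : ℂ) * Complex.exp (2 * Real.pi * (-φ i : ℝ) * Complex.I)‖⁻¹
  have hne : ∀ (φ : Fin S.card → ℝ) (i : Fin S.card),
      ‖1 - (((pr i : ℝ) ^ (-σ) : ℝ) : ℂ) *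
        Complex.exp (2 * Real.pi * (-φ i : ℝ) * Complex.I)‖ ≠ 0 :=
    fun φ i h => by
      rw [norm_eq_zero, sub_eq_zero] at h
      have := congrArg (‖·‖) h
      obtain ⟨h0, h1⟩ := rpow_lt_one_of_prime (hpr i) hσ
      rw [norm_one, norm_mul, Complex.norm_real, Real.norm_of_nonneg h0.le,
        show (2 * Real.pi * ((-φ i : ℝ) : ℂ) * Complex.I) =
          ((2 * Real.pi * -φ i : ℝ) : ℂ) * Complex.I by push_cast; ring,
        Complex.norm_exp_ofReal_mul_I] at this
      linarith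
  have hΦ : Continuous Φ := continuous_finsetProd _ fun i _ =>
    Continuous.inv₀ (by fun_prop) fun φ => hne φ i
  have hval : Φ (fun _ => -c) = eulerPart a σ N := by
    rw [eulerPart, ← hprod fun p => (1 + a * (p : ℝ) ^ (-σ))⁻¹]
    refine Finset.prod_congr rfl fun i _ => ?_
    obtain ⟨h0, h1⟩ := rpow_lt_one_of_prime (hpr i) hσ
    rw [neg_neg, hc, show (1 : ℂ) - (((pr i : ℝ) ^ (-σ) : ℝ) : ℂ) * -(a : ℂ) =
      ((1 + a * (pr i : ℝ) ^ (-σ) : ℝ) : ℂ) by push_cast; ring, Complex.norm_real,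
      Real.norm_of_nonneg]
    rcases ha with rfl | rfl <;> linarith
  obtain ⟨δ, hδ, hnear⟩ := Metric.continuous_iff.1 hΦ (fun _ => -c) ε hε
  obtain ⟨t, ht, k, hk⟩ := exists_approx_flow (θ := fun i => Real.log (pr i) / (2 * Real.pi))
    (fun m hm => log_primes_independent hpr hinj m (by
      rw [← mul_right_inj' (inv_ne_zero Real.two_pi_pos.ne'), mul_zero, Finset.mul_sum, ← hm]
      exact Finset.sum_congr rfl fun i _ => by ring))
    (fun _ => -c) hδ T
  refine ⟨t, ht, ?_⟩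
  have h := hnear (fun i => t * (Real.log (pr i) / (2 * Real.pi)) - k i)
    ((dist_pi_lt_iff hδ).2 fun i => by rw [Real.dist_eq]; exact hk i)
  rw [Real.dist_eq, hval] at h
  refine lt_of_eq_of_lt (congrArg (fun x => |x - eulerPart a σ N|) ?_) h
  rw [normPart, ← hprod fun p => ‖1 - (p : ℂ) ^ (-((σ : ℂ) + t * Complex.I))‖⁻¹]
  refine Finset.prod_congr rfl fun i _ => ?_
  congr 3
  rw [Complex.ofReal_cpow (Nat.cast_nonneg _), Complex.ofReal_natCast, neg_add,
    Complex.cpow_add _ _ (Nat.cast_ne_zero.2 (hpr i).ne_zero), Complex.ofReal_neg]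
  congr 1
  rw [Complex.cpow_def_of_ne_zero (Nat.cast_ne_zero.2 (hpr i).ne_zero), ← Complex.natCast_log,
    Complex.exp_eq_exp_iff_exists_int]
  refine ⟨-k i, ?_⟩
  have : (Real.pi : ℂ) ≠ 0 := Complex.ofReal_ne_zero.2 Real.pi_ne_zero
  push_cast
  field_simp
  ring

/-- **Bohr**: the bounds for `|ζ|` on a line right of one are approached at great height. -/
theorem bohr_extremes {σ : ℝ} (hσ : 1 < σ) :
    (∀ t : ℝ, realZeta (2 * σ) / realZeta σ ≤ ‖riemannZeta (σ + t * Complex.I)‖ ∧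
      ‖riemannZeta (σ + t * Complex.I)‖ ≤ realZeta σ) ∧
    ∀ ε > 0, ∀ T : ℝ, (∃ t, T ≤ t ∧ realZeta σ - ε < ‖riemannZeta (σ + t * Complex.I)‖) ∧
      ∃ t, T ≤ t ∧ ‖riemannZeta (σ + t * Complex.I)‖ < realZeta (2 * σ) / realZeta σ + ε := by
  refine ⟨fun t => ?_, fun ε hε T => ?_⟩
  · simpa [normPart, eulerPart] using norm_zeta_bounds hσ t 0
  set L := realZeta (2 * σ) / realZeta σ
  set U := realZeta σ
  have hU : 0 < U := zero_lt_one.trans_le (realZeta_pos hσ)
  have hL : 0 < L := div_pos (zero_lt_one.trans_le (realZeta_pos (by linarith))) hU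
  have h1 : Tendsto (fun N => eulerPart (-1) σ N * (L / eulerPart 1 σ N)) atTop
      (𝓝 (U * (L / L))) :=
    (tendsto_eulerPart_neg hσ).mul (tendsto_const_nhds.div (tendsto_eulerPart_pos hσ) hL.ne')
  have h2 : Tendsto (fun N => eulerPart 1 σ N * (U / eulerPart (-1) σ N)) atTop
      (𝓝 (L * (U / U))) :=
    (tendsto_eulerPart_pos hσ).mul (tendsto_const_nhds.div (tendsto_eulerPart_neg hσ) hU.ne')
  rw [div_self hL.ne', mul_one] at h1
  rw [div_self hU.ne', mul_one] at h2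
  constructor
  · obtain ⟨N, hN⟩ := (h1.eventually (eventually_gt_nhds (by linarith : U - ε < U))).exists
    have hc : Tendsto (fun x => x * (L / eulerPart 1 σ N)) (𝓝 (eulerPart (-1) σ N))
        (𝓝 (eulerPart (-1) σ N * (L / eulerPart 1 σ N))) := tendsto_id.mul_const _
    obtain ⟨η, hη, hball⟩ := Metric.eventually_nhds_iff.1 (hc.eventually (eventually_gt_nhds hN))
    obtain ⟨t, ht, hnear⟩ := exists_normPart_near (by linarith : 0 < σ) (Or.inr rfl) N T hη
    exact ⟨t, ht, (hball (by rw [Real.dist_eq]; exact hnear)).trans_le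
      (norm_zeta_bounds hσ t N).1⟩
  · obtain ⟨N, hN⟩ := (h2.eventually (eventually_lt_nhds (by linarith : L < L + ε))).exists
    have hc : Tendsto (fun x => x * (U / eulerPart (-1) σ N)) (𝓝 (eulerPart 1 σ N))
        (𝓝 (eulerPart 1 σ N * (U / eulerPart (-1) σ N))) := tendsto_id.mul_const _
    obtain ⟨η, hη, hball⟩ := Metric.eventually_nhds_iff.1 (hc.eventually (eventually_lt_nhds hN))
    obtain ⟨t, ht, hnear⟩ := exists_normPart_near (by linarith : 0 < σ) (Or.inl rfl) N T hη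
    exact ⟨t, ht, (norm_zeta_bounds hσ t N).2.trans_lt
      (hball (by rw [Real.dist_eq]; exact hnear))⟩

/-- **`ζ` and `1 / ζ` are unbounded** right of the line one at great height. -/
theorem bohr_unbounded (C T : ℝ) :
    (∃ s : ℂ, 1 < s.re ∧ T ≤ s.im ∧ C < ‖riemannZeta s‖) ∧
      ∃ s : ℂ, 1 < s.re ∧ T ≤ s.im ∧ C < ‖(riemannZeta s)⁻¹‖ := by
  obtain ⟨M, hM, hMC⟩ : ∃ M : ℝ, 0 < M ∧ C < M := ⟨|C| + 1, by positivity, by
    linarith [le_abs_self C]⟩
  obtain ⟨σ, hσ, hσ2, hbig⟩ : ∃ σ : ℝ, 1 < σ ∧ σ < 2 ∧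
      M * (realZeta 2 + 1) + M + 1 < realZeta σ := by
    have hto : Tendsto (fun x : ℝ => (x : ℂ)) (𝓝[>] (1 : ℝ)) (𝓝[≠] (1 : ℂ)) :=
      tendsto_nhdsWithin_of_tendsto_nhds_of_eventually_within _
        ((Complex.continuous_ofReal.tendsto' 1 1 Complex.ofReal_one).mono_left nhdsWithin_le_nhds)
        (eventually_nhdsWithin_of_forall fun x hx => Complex.ofReal_ne_one.2 (ne_of_gt hx))
    have h := (Complex.continuous_re.tendsto _).comp (riemannZeta_residue_one.comp hto)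
    set R := M * (realZeta 2 + 1) + M + 1
    have hR : 0 < R := by
      have := realZeta_pos (show (1 : ℝ) < 2 by norm_num)
      positivity
    obtain ⟨σ, h1, hσ, hlt⟩ := ((h.eventually (eventually_gt_nhds
      (show (1 / 2 : ℝ) < (1 : ℂ).re by simp; norm_num))).and (Ioo_mem_nhdsGT
        (show (1 : ℝ) < 1 + min (1 / (2 * R)) (1 / 2) by
          linarith [show 0 < min (1 / (2 * R)) (1 / 2) by positivity]))).exists
    have hm1 := min_le_left (1 / (2 * R)) (1 / 2 : ℝ)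
    have hm2 := min_le_right (1 / (2 * R)) (1 / 2 : ℝ)
    simp only [Function.comp_apply, Complex.mul_re, Complex.sub_re, Complex.ofReal_re,
      Complex.one_re, Complex.sub_im, Complex.ofReal_im, Complex.one_im, sub_zero, zero_mul] at h1
    refine ⟨σ, hσ, by linarith, ?_⟩
    have h5 : σ - 1 < 1 / (2 * R) := by linarith
    rw [lt_div_iff₀ (by positivity)] at h5
    show R < (riemannZeta σ).re
    by_contra! hle
    nlinarith [mul_le_mul_of_nonneg_left hle (sub_pos.2 hσ).le]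
  have h2 : realZeta (2 * σ) ≤ realZeta 2 := by
    refine le_of_tendsto_of_tendsto' (tendsto_eulerPart_neg (by linarith))
      (tendsto_eulerPart_neg (by norm_num)) fun N => Finset.prod_le_prod (fun p hp => ?_)
      fun p hp => ?_
    all_goals
      have hp' := Nat.prime_of_mem_primesBelow hp
      obtain ⟨a0, a1⟩ := rpow_lt_one_of_prime hp' (show (0 : ℝ) < 2 * σ by linarith)
      obtain ⟨b0, b1⟩ := rpow_lt_one_of_prime hp' (show (0 : ℝ) < 2 by norm_num)
    · exact (inv_pos.2 (by linarith)).le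
    · refine inv_anti₀ (by linarith) ?_
      have := Real.rpow_le_rpow_of_exponent_le (Nat.one_le_cast.2 hp'.one_le : (1 : ℝ) ≤ p)
        (show -(2 * σ) ≤ -2 by linarith)
      linarith
  have hz2 := realZeta_pos (show (1 : ℝ) < 2 by norm_num)
  have hL : realZeta (2 * σ) / realZeta σ < 1 / M := by
    rw [div_lt_div_iff₀ (by nlinarith) hM, one_mul]
    nlinarith [mul_le_mul_of_nonneg_right h2 hM.le]
  obtain ⟨hbd, hex⟩ := bohr_extremes hσ
  constructor
  · obtain ⟨⟨t, ht, htt⟩, -⟩ := hex 1 one_pos T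
    exact ⟨σ + t * Complex.I, by simpa using hσ, by simpa using ht, by nlinarith⟩
  · obtain ⟨-, t, ht, htt⟩ := hex (1 / M - realZeta (2 * σ) / realZeta σ) (by linarith) T
    refine ⟨σ + t * Complex.I, by simpa using hσ, by simpa using ht, hMC.trans ?_⟩
    rw [add_sub_cancel] at htt
    rw [norm_inv, lt_inv_comm₀ hM ((div_pos (zero_lt_one.trans_le (realZeta_pos (by linarith)))
      (zero_lt_one.trans_le (realZeta_pos hσ))).trans_le (hbd t).1), inv_eq_one_div]
    exact htt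

end FA.KroneckerApprox

end
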