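import Fermat.Agent.BiluTorus.Torus
import Mathlib.Topology.Algebra.Order.Floor
import Mathlib.Analysis.SpecialFunctions.Complex.Circle

/-!
# Kronecker's theorem by equidistribution on the torus

For independent `1, θ i` every monomial but `1` has mean tending to zero along the multiples of `θ`,
being a geometric sum; the monomials span a dense set of continuous functions.
-/

set_option autoImplicit false
set_option linter.style.haveILetI false

noncomputable section

open Filter Topology MeasureTheory Finset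

namespace FA.KroneckerApprox

variable {n : ℕ}

/-- The point of the torus with coordinates `x`. -/
def torPoint (x : Fin n → ℝ) : UnitAddTorus (Fin n) := fun i => (x i : AddCircle (1 : ℝ))

/-- `1, θ i` are independent over the integers. -/
def IsIndependentWithOne (θ : Fin n → ℝ) : Prop :=
  ∀ (m : Fin n → ℤ) (k : ℤ), ∑ i, (m i : ℝ) * θ i = k → m = 0

theorem mFourier_torPoint (a : Fin n → ℤ) (θ : Fin n → ℝ) (q : ℕ) :
    UnitAddTorus.mFourier a (torPoint ((q : ℝ) • θ)) =
      Complex.exp ((2 * Real.pi * ∑ i, (a i : ℝ) * θ i : ℝ) * Complex.I) ^ q := by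
  show ∏ i, fourier (a i) (torPoint ((q : ℝ) • θ) i) = _
  simp only [torPoint, fourier_coe_apply, ← Complex.exp_sum, ← Complex.exp_nat_mul,
    Pi.smul_apply, smul_eq_mul]
  refine congrArg Complex.exp ?_
  push_cast
  simp only [Finset.mul_sum, Finset.sum_mul]
  exact Finset.sum_congr rfl fun i _ => by ring

/-- **Weyl's theorem on the torus.** -/
theorem tendsto_mean {θ : Fin n → ℝ} (hθ : IsIndependentWithOne θ)
    (G : C(UnitAddTorus (Fin n), ℂ)) :
    Tendsto (fun N : ℕ => (∑ q ∈ range N, G (torPoint ((q : ℝ) • θ))) / N) atTop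
      (𝓝 (∫ x, G x)) := by
  have hint : ∀ φ : C(UnitAddTorus (Fin n), ℂ),
      Integrable φ (volume : Measure (UnitAddTorus (Fin n))) :=
    fun φ => φ.continuous.integrable_of_hasCompactSupport (HasCompactSupport.of_compactSpace φ)
  have := FA.BiluTorus.isProbability_torus (ι := Fin n)
  obtain ⟨A, hA⟩ : ∃ A : C(UnitAddTorus (Fin n), ℂ) → ℕ → ℂ,
      A = fun (φ : C(UnitAddTorus (Fin n), ℂ)) N =>
      (∑ q ∈ range N, φ (torPoint ((q : ℝ) • θ))) / N := ⟨_, rfl⟩
  suffices h : Tendsto (A G) atTop (𝓝 (∫ x, G x)) by rwa [hA] at h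
  have hspan : ∀ φ ∈ Submodule.span ℂ (Set.range <| UnitAddTorus.mFourier (d := Fin n)),
      Tendsto (A φ) atTop (𝓝 (∫ x, φ x)) := by
    intro φ hφ
    induction hφ using Submodule.span_induction with
    | mem φ hφ =>
      obtain ⟨a, rfl⟩ := hφ
      rw [FA.BiluTorus.integral_mFourier]
      split_ifs with ha
      · subst ha
        refine tendsto_const_nhds.congr' ?_
        filter_upwards [eventually_gt_atTop 0] with N hN
        simp [hA, UnitAddTorus.mFourier_zero, hN.ne']
      · set z := Complex.exp ((2 * Real.pi * ∑ i, (a i : ℝ) * θ i : ℝ) * Complex.I)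
        have hz1 : z ≠ 1 := fun h => ha (by
          obtain ⟨k, hk⟩ := Complex.exp_eq_one_iff.1 h
          have hk' := congrArg Complex.im hk
          simp at hk'
          refine hθ a k (mul_left_cancel₀ Real.two_pi_pos.ne' ?_)
          linear_combination hk')
        have hzn : ‖z‖ = 1 := Complex.norm_exp_ofReal_mul_I _
        refine squeeze_zero_norm (fun N => ?_)
          (tendsto_const_div_atTop_nhds_zero_nat (2 / ‖z - 1‖))
        simp only [hA, mFourier_torPoint]
        rw [show (Complex.exp ((2 * Real.pi * ∑ i, (a i : ℝ) * θ i : ℝ) * Complex.I)) = z from rfl,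
          geom_sum_eq hz1, norm_div, norm_div, Complex.norm_natCast]
        gcongr
        refine (norm_sub_le _ _).trans ?_
        rw [norm_pow, hzn, one_pow, norm_one]
        norm_num
    | zero => simp [hA]
    | add φ φ' _ _ hφ hφ' =>
      simp only [ContinuousMap.add_apply]
      rw [integral_add (hint φ) (hint φ')]
      refine (hφ.add hφ').congr fun N => ?_
      simp only [hA, ContinuousMap.add_apply, Finset.sum_add_distrib, add_div]
    | smul c φ _ hφ =>
      simp only [ContinuousMap.smul_apply, smul_eq_mul]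
      rw [integral_const_mul]
      refine (hφ.const_mul c).congr fun N => ?_
      simp only [hA, ContinuousMap.smul_apply, smul_eq_mul, ← Finset.mul_sum, mul_div_assoc]
  rw [Metric.tendsto_atTop]
  intro ε hε
  have hmem : G ∈ (Submodule.span ℂ
      (Set.range <| UnitAddTorus.mFourier (d := Fin n))).topologicalClosure := by
    rw [UnitAddTorus.span_mFourier_closure_eq_top]; exact Submodule.mem_top
  rw [← SetLike.mem_coe, Submodule.topologicalClosure_coe, Metric.mem_closure_iff] at hmem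
  obtain ⟨φ, hφ, hd⟩ := hmem (ε / 3) (by linarith)
  rw [dist_eq_norm] at hd
  obtain ⟨N, hN⟩ := Metric.tendsto_atTop.1 (hspan φ hφ) (ε / 3) (by linarith)
  refine ⟨N, fun k hk => ?_⟩
  have h1 : ‖A G k - A φ k‖ ≤ ε / 3 := by
    simp only [hA, ← sub_div, ← Finset.sum_sub_distrib, norm_div, Complex.norm_natCast]
    refine div_le_of_le_mul₀ (Nat.cast_nonneg _) (by linarith) ?_
    refine (norm_sum_le_of_le _ (n := fun _ => ε / 3) fun v _ =>
      ((G - φ).norm_coe_le_norm _).trans hd.le).trans (le_of_eq ?_)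
    rw [Finset.sum_const, nsmul_eq_mul, Finset.card_range, mul_comm]
  have h2 : ‖(∫ x, φ x) - ∫ x, G x‖ ≤ ε / 3 := by
    rw [← integral_sub (hint φ) (hint G)]
    refine (norm_integral_le_of_norm_le_const (C := ε / 3)
      (Eventually.of_forall fun x => ?_)).trans (le_of_eq (by rw [probReal_univ, mul_one]))
    rw [norm_sub_rev]
    exact ((G - φ).norm_coe_le_norm x).trans hd.le
  have h3 := hN k hk
  rw [dist_eq_norm] at h3 ⊢
  have h4 := norm_sub_le_norm_sub_add_norm_sub (A G k) (A φ k) (∫ x, G x)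
  have h5 := norm_sub_le_norm_sub_add_norm_sub (A φ k) (∫ x, φ x) (∫ x, G x)
  linarith

/-- **Kronecker's theorem.** -/
theorem exists_approx {θ : Fin n → ℝ} (hθ : IsIndependentWithOne θ) (α : Fin n → ℝ) {ε : ℝ}
    (hε : 0 < ε) (T : ℕ) : ∃ q : ℕ, T ≤ q ∧ ∃ p : Fin n → ℤ, ∀ i, |q * θ i - p i - α i| < ε := by
  obtain ⟨g, hg⟩ : ∃ g : C(UnitAddTorus (Fin n), ℝ),
      ∀ x, g x = max 0 (ε - dist x (torPoint α)) :=
    ⟨⟨fun x => max 0 (ε - dist x (torPoint α)), by fun_prop⟩, fun _ => rfl⟩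
  have := FA.BiluTorus.isProbability_torus (ι := Fin n)
  have hpos : 0 < ∫ x, g x := by
    refine g.continuous.integral_pos_of_hasCompactSupport_nonneg_nonzero
      (HasCompactSupport.of_compactSpace g) (fun x => by rw [hg]; exact le_max_left _ _)
      (x := torPoint α) ?_
    rw [hg, dist_self, sub_zero, max_eq_right hε.le]
    exact hε.ne'
  obtain ⟨G, hG⟩ : ∃ G : C(UnitAddTorus (Fin n), ℂ), ∀ x, G x = (g x : ℂ) :=
    ⟨⟨fun x => (g x : ℂ), Complex.continuous_ofReal.comp g.continuous⟩, fun _ => rfl⟩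
  by_contra! hno
  have hzero : ∀ q, T ≤ q → g (torPoint ((q : ℝ) • θ)) = 0 := fun q hq => by
    rw [hg]
    refine max_eq_left (sub_nonpos.2 (le_of_not_gt fun hlt => ?_))
    obtain ⟨i, hi⟩ := hno q hq fun i => round ((q : ℝ) * θ i - α i)
    refine hi.not_gt ?_
    have h := (dist_le_pi_dist (torPoint ((q : ℝ) • θ)) (torPoint α) i).trans_lt hlt
    rw [dist_eq_norm, torPoint, torPoint, ← AddCircle.coe_sub, UnitAddCircle.norm_eq,
      Pi.smul_apply, smul_eq_mul] at h
    rwa [show (q : ℝ) * θ i - round ((q : ℝ) * θ i - α i) - α i =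
      (q : ℝ) * θ i - α i - round ((q : ℝ) * θ i - α i) by ring]
  have hlim : Tendsto (fun N : ℕ => (∑ q ∈ range N, G (torPoint ((q : ℝ) • θ))) / N) atTop
      (𝓝 0) := by
    refine squeeze_zero_norm' ?_ (tendsto_const_div_atTop_nhds_zero_nat
      ‖∑ q ∈ range T, G (torPoint ((q : ℝ) • θ))‖)
    filter_upwards [eventually_ge_atTop T] with N hN
    rw [norm_div, Complex.norm_natCast, ← Finset.sum_range_add_sum_Ico _ hN,
      Finset.sum_eq_zero (s := Finset.Ico T N) (fun q hq => by
        rw [hG, hzero q (Finset.mem_Ico.1 hq).1, Complex.ofReal_zero]), add_zero]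
  have h := tendsto_nhds_unique hlim (tendsto_mean hθ G)
  rw [show (∫ x, G x) = ((∫ x, g x : ℝ) : ℂ) by
    simp only [hG]
    exact integral_ofReal] at h
  exact hpos.ne (Complex.ofReal_eq_zero.1 h.symm).symm

theorem approx_iff {θ : Fin n → ℝ} : IsIndependentWithOne θ ↔
    ∀ α : Fin n → ℝ, ∀ ε > 0, ∀ T : ℕ, ∃ q : ℕ, T ≤ q ∧ ∃ p : Fin n → ℤ,
      ∀ i, |q * θ i - p i - α i| < ε := by
  refine ⟨fun h α ε hε T => exists_approx h α hε T, fun h m k hk => ?_⟩
  by_contra hm
  obtain ⟨j, hj⟩ := Function.ne_iff.1 hm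
  have hj' : (m j : ℝ) ≠ 0 := Int.cast_ne_zero.2 hj
  set S : ℝ := ∑ i, |(m i : ℝ)| + 1
  have hS : 0 < S := by positivity
  obtain ⟨q, -, p, hp⟩ := h (Pi.single j (1 / (2 * (m j : ℝ)))) (1 / (4 * S))
    (by positivity) 0
  have hb : |∑ i, (m i : ℝ) *
      (q * θ i - p i - (Pi.single j (1 / (2 * (m j : ℝ))) : Fin n → ℝ) i)| < 1 / 4 := by
    refine (Finset.abs_sum_le_sum_abs _ _).trans_lt ?_
    refine (Finset.sum_le_sum (g := fun i => |(m i : ℝ)| * (1 / (4 * S)))
      fun i _ => ?_).trans_lt ?_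
    · rw [abs_mul]
      exact mul_le_mul_of_nonneg_left (hp i).le (abs_nonneg _)
    · rw [← Finset.sum_mul, ← mul_div_assoc, mul_one, div_lt_iff₀ (by positivity)]
      linarith
  have e : ∑ i, (m i : ℝ) *
      (q * θ i - p i - (Pi.single j (1 / (2 * (m j : ℝ))) : Fin n → ℝ) i) =
      ((q * k - ∑ i, m i * p i : ℤ) : ℝ) - 1 / 2 := by
    simp only [mul_sub, Finset.sum_sub_distrib, Pi.single_apply, mul_ite, mul_zero,
      Finset.sum_ite_eq', Finset.mem_univ, if_true]
    rw [show (m j : ℝ) * (1 / (2 * m j)) = 1 / 2 by field_simp]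
    push_cast
    rw [← hk, Finset.mul_sum]
    congr 2
    exact Finset.sum_congr rfl fun i _ => by ring
  rw [e, abs_lt] at hb
  generalize ((q : ℤ) * k - ∑ i, m i * p i) = z at hb
  rcases le_or_gt z 0 with hz | hz
  · have : (z : ℝ) ≤ 0 := by exact_mod_cast hz
    linarith
  · have : (1 : ℝ) ≤ z := by exact_mod_cast hz
    linarith

/-- **The flow on the torus.** -/
theorem exists_approx_flow {θ : Fin n → ℝ}
    (hθ : ∀ m : Fin n → ℤ, ∑ i, (m i : ℝ) * θ i = 0 → m = 0) (α : Fin n → ℝ) {ε : ℝ}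
    (hε : 0 < ε) (T : ℝ) : ∃ t : ℝ, T ≤ t ∧ ∃ p : Fin n → ℤ, ∀ i, |t * θ i - p i - α i| < ε := by
  obtain ⟨s, hs, hs'⟩ : ∃ s : ℝ, s ∈ Set.Ioi (0 : ℝ) ∧
      s ∈ (Set.range fun z : (Fin n → ℤ) × ℤ => (z.2 : ℝ) / ∑ i, (z.1 i : ℝ) * θ i)ᶜ :=
    ((Set.countable_range _).dense_compl ℝ).inter_open_nonempty _ isOpen_Ioi Set.nonempty_Ioi
  have hind : IsIndependentWithOne (s • θ) := fun m k hk => by
    refine hθ m ?_
    by_contra hne
    refine hs' ⟨(m, k), ?_⟩
    show (k : ℝ) / ∑ i, (m i : ℝ) * θ i = s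
    rw [div_eq_iff hne, ← hk, Finset.mul_sum]
    exact Finset.sum_congr rfl fun i _ => by rw [Pi.smul_apply, smul_eq_mul]; ring
  obtain ⟨N, hN⟩ := exists_nat_ge (T / s)
  obtain ⟨q, hq, p, hp⟩ := exists_approx hind α hε N
  refine ⟨q * s, ?_, p, fun i => ?_⟩
  · rw [div_le_iff₀ hs] at hN
    exact hN.trans (mul_le_mul_of_nonneg_right (Nat.cast_le.2 hq) (le_of_lt hs))
  · have := hp i
    rwa [Pi.smul_apply, smul_eq_mul, ← mul_assoc] at this

end FA.KroneckerApprox

end
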